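/-
T4E-Top (helper3), part 2': **the degrees of the fields `F_{N,L} = TaF L N` over an ARBITRARY field `L`
of characteristic zero** (for the abstract `section Gen` of the tower of T4E):

* `t4e_finrank_bc_eq` : for a tower `ℚ ⊆ L ⊆ M`, `[F_{N,L} : L(j)] = [F_{N,M} : M(j)]`
  (`≤` : helper8's `t2dg_finrank_bc_le`, independent families stay independent;
   `≥` : `F_{N,M} = M(j) · F_{N,L}`, `bcd_finrank_adjoin_image_le`);
* `t4e_finrank_gen`   : `[F_{N,L} : L(j)] = ψ(N)` for every `L` and every `N` (compare `L` and `ℚ̄` inside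
  an algebraic closure of `L`; over `ℚ̄` it is `finrank_jBar`);
* `t4e_finrank_alpha_gen` : `[F_{N1 q,L} : α F_{N1,L}] = q` for `q` prime, `q ∣ N1` — so `T4eLink.deg`
  needs no argument.
-/
import Mathlib
import Fermat.Agent.Lib.T1.GoodRed.CoreDeg
import Fermat.Agent.Lib.T1.GoodRed.Core
import Fermat.Agent.Lib.T2.Inst.DegreeLevel
import Fermat.Agent.Lib.T2.Inst.KronH
import Fermat.Agent.Lib.T1.Inst.Descent

set_option autoImplicit false
set_option linter.unusedSectionVars false
set_option linter.unusedVariables false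
set_option linter.style.haveILetI false
set_option synthInstance.maxHeartbeats 400000

open HahnSeries ModularCurve IntermediateField Fermat.Agent.T1 Fermat.Agent.T2 Fermat.Agent.TW
  Fermat.Agent.Igusa Module

noncomputable section

namespace Fermat.Agent.T4

local notation "Qb" => AlgebraicClosure ℚ

section Tower

variable {L M : Type*} [Field L] [Field M] [Algebra ℚ L] [Algebra ℚ M] [Algebra L M]
  [IsScalarTower ℚ L M] (N : ℕ) [NeZero N]

/-- base change of modular functions along an extension of the constant field -/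
def t4eBc : ↥(TaF L N) →+* ↥(TaF M N) :=
  t2dBc (algebraMap L M) (TaF L N) (TaF M N)
    (fun t ht => tbd_coeffMap_mem (modularFunctionFieldFull N) ht)

theorem coe_t4eBc (f : ↥(TaF L N)) :
    ((t4eBc (L := L) (M := M) N f : ↥(TaF M N)) : LaurentSeries M)
      = coeffMap (algebraMap L M) (f : LaurentSeries L) := rfl

theorem t4eBc_taJ : t4eBc (L := L) (M := M) N (taJ (L := L) N) = taJ (L := M) N := by
  apply Subtype.ext
  rw [coe_t4eBc, coe_taJ, coe_taJ]
  exact coeffMap_jqModC _

theorem t4eBc_algebraMap (a : L) :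
    t4eBc (L := L) (M := M) N (algebraMap L ↥(TaF L N) a)
      = algebraMap M ↥(TaF M N) (algebraMap L M a) :=
  t2dBc_algebraMap (algebraMap L M) (TaF L N) (TaF M N) _ a

/-- base change maps `L(j)` into `M(j)` -/
theorem t4eBc_mem_range (a : ↥(L⟮taJ (L := L) N⟯)) :
    t4eBc (L := L) (M := M) N (algebraMap ↥(L⟮taJ (L := L) N⟯) ↥(TaF L N) a) ∈
      Set.range (algebraMap ↥(M⟮taJ (L := M) N⟯) ↥(TaF M N)) := by
  refine bcd_map_algebraMap_mem_range (t4eBc (L := L) (M := M) N) ?_ {taJ (L := L) N}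
    {taJ (L := M) N} ?_ a
  · intro c
    exact ⟨algebraMap L M c, (t4eBc_algebraMap N c).symm⟩
  · intro s hs
    rw [Set.mem_singleton_iff] at hs
    rw [hs, t4eBc_taJ]
    exact mem_adjoin_simple_self M _

/-- `F_{N,M}` is generated over `M(j)` by the image of `F_{N,L}` -/
theorem t4e_adjoin_range_t4eBc :
    adjoin ↥(M⟮taJ (L := M) N⟯) (t4eBc (L := L) (M := M) N '' Set.univ) = ⊤ := by
  rw [eq_top_iff]
  intro f _
  set E := adjoin ↥(M⟮taJ (L := M) N⟯) (t4eBc (L := L) (M := M) N '' Set.univ) with hE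
  set E' : IntermediateField M (LaurentSeries M) :=
    (E.restrictScalars M).map (TaF M N).val with hE'
  have hle : TaF M N ≤ E' := by
    rw [TaF, laurentBaseChange, IntermediateField.adjoin_le_iff]
    rintro y ⟨z, hz, rfl⟩
    refine ⟨t4eBc (L := L) (M := M) N (taBC L N ⟨z, hz⟩), ?_, ?_⟩
    · exact subset_adjoin _ _ ⟨_, Set.mem_univ _, rfl⟩
    · show coeffMap (algebraMap L M) (coeffEmb L z) = coeffEmb M z
      exact tbd_coeffMap_coeffEmb z
  obtain ⟨g, hg, hgf⟩ := hle f.2
  have : g = f := Subtype.ext hgf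
  rw [← this]
  exact hg

/-- **the degree `[F_{N,L} : L(j)]` does not depend on the field of constants** -/
theorem t4e_finrank_bc_eq :
    finrank ↥(L⟮taJ (L := L) N⟯) ↥(TaF L N) = finrank ↥(M⟮taJ (L := M) N⟯) ↥(TaF M N) := by
  apply le_antisymm
  · -- independent families stay independent
    haveI hfin : FiniteDimensional
        ↥M⟮t2dBc (algebraMap L M) (TaF L N) (TaF M N)
          (fun t ht => tbd_coeffMap_mem (modularFunctionFieldFull N) ht) (taJ (L := L) N)⟯
        ↥(TaF M N) := by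
      have h1 : t2dBc (algebraMap L M) (TaF L N) (TaF M N)
          (fun t ht => tbd_coeffMap_mem (modularFunctionFieldFull N) ht) (taJ (L := L) N)
          = taJ (L := M) N := t4eBc_taJ N
      rw [h1]
      exact ta_finiteDimensional M N
    have h := t2dg_finrank_bc_le (algebraMap L M) (TaF L N) (TaF M N)
      (fun t ht => tbd_coeffMap_mem (modularFunctionFieldFull N) ht) (taJ (L := L) N)
      (ta_transcendental_taJ N)
    have h1 : t2dBc (algebraMap L M) (TaF L N) (TaF M N)
        (fun t ht => tbd_coeffMap_mem (modularFunctionFieldFull N) ht) (taJ (L := L) N)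
        = taJ (L := M) N := t4eBc_taJ N
    rw [h1] at h
    exact h
  · -- generation
    have htop : adjoin ↥(L⟮taJ (L := L) N⟯) (Set.univ : Set ↥(TaF L N)) = ⊤ := by
      rw [eq_top_iff]
      intro f _
      exact subset_adjoin _ _ (Set.mem_univ f)
    haveI hfd0 : FiniteDimensional ↥(L⟮taJ (L := L) N⟯)
        ↥(adjoin ↥(L⟮taJ (L := L) N⟯) (Set.univ : Set ↥(TaF L N))) := by
      rw [htop]
      exact (IntermediateField.topEquiv (F := ↥(L⟮taJ (L := L) N⟯))
        (E := ↥(TaF L N))).symm.toLinearEquiv.finiteDimensional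
    obtain ⟨h1, -⟩ := bcd_finrank_adjoin_image_le
      (K0 := ↥(L⟮taJ (L := L) N⟯)) (K := ↥(M⟮taJ (L := M) N⟯))
      (t4eBc (L := L) (M := M) N) (t4eBc_mem_range N) Set.univ
    rw [t4e_adjoin_range_t4eBc, htop, IntermediateField.finrank_top',
      IntermediateField.finrank_top'] at h1
    exact h1

end Tower

/-- the same along an arbitrary ring homomorphism of the constant fields -/
theorem t4e_finrank_bc_eq' {L M : Type*} [Field L] [Field M] [Algebra ℚ L] [Algebra ℚ M]
    (j : L →+* M) (N : ℕ) [NeZero N] :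
    finrank ↥(L⟮taJ (L := L) N⟯) ↥(TaF L N) = finrank ↥(M⟮taJ (L := M) N⟯) ↥(TaF M N) := by
  letI : Algebra L M := j.toAlgebra
  haveI : IsScalarTower ℚ L M :=
    IsScalarTower.of_algebraMap_eq (fun x => (j.map_rat_algebraMap x).symm)
  exact t4e_finrank_bc_eq N

section Gen

variable (L : Type*) [Field L] [Algebra ℚ L] (N : ℕ) [NeZero N]

/-- **`[F_{N,L} : L(j)] = ψ(N)`** for every field `L` of characteristic zero and every level `N` -/
theorem t4e_finrank_gen :
    finrank ↥(L⟮taJ (L := L) N⟯) ↥(TaF L N) = dedekindPsi N := by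
  -- compare `L` and `ℚ̄` inside an algebraic closure of `L`
  have h1 := t4e_finrank_bc_eq' (algebraMap L (AlgebraicClosure L)) N
  haveI : Algebra.IsAlgebraic ℚ Qb := AlgebraicClosure.isAlgebraic ℚ
  have h2 := t4e_finrank_bc_eq'
    ((IsAlgClosed.lift : Qb →ₐ[ℚ] AlgebraicClosure L) : Qb →+* AlgebraicClosure L) N
  have h3 : finrank ↥(Qb⟮taJ (L := Qb) N⟯) ↥(TaF Qb N) = dedekindPsi N := t2dg_finrank_J N
  rw [h1, ← h2, h3]

end Gen

section Alpha

variable (L : Type*) [Field L] [Algebra ℚ L] (N1 q : ℕ) [NeZero N1] [NeZero q]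

attribute [local instance] t2iAlgebra t2i_isScalarTower

/-- **`[F_{N1 q,L} : α F_{N1,L}] = q`** for `q` prime, `q ∣ N1`, over any field `L` of characteristic
zero -/
theorem t4e_finrank_alpha_gen (hq : q.Prime) (hdvd : q ∣ N1) :
    finrank ↥(TaF L N1) ↥(TaF L (N1 * q)) = q := by
  haveI : Fact q.Prime := ⟨hq⟩
  have h1 := ta_finrank_tower (heckeAlphaBar L N1 q) (taJ (L := L) N1)
  rw [t2i_alpha_taJ] at h1
  have h2 := t4e_finrank_gen L N1
  have h3 := t4e_finrank_gen L (N1 * q)
  have h6 : dedekindPsi (N1 * q) = dedekindPsi N1 * q :=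
    igPsi_mul_prime_of_dvd hq (NeZero.ne N1) hdvd
  have h8 : 0 < dedekindPsi N1 := igPsi_pos (NeZero.ne N1)
  rw [h3, h2, h6] at h1
  exact (Nat.eq_of_mul_eq_mul_left h8 h1).symm

end Alpha

end Fermat.Agent.T4
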