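/-
T4E-Top (helper3), part 2: **the degrees of the level fields over the fixed fields `L_H ⊆ ℚ̄`**, at
EVERY level `N` (no condition on `N` at `𝔓.p`):

* `t4e_finrank_lev`  : `[F_{N,L_H} : L_H(j)] = ψ(N)`  (`≤` is `ta_finrank_le`, base change from `ℚ`;
  `≥` because `F_{N,ℚ̄} = ℚ̄ · F_{N,L_H}` and `[F_{N,ℚ̄} : ℚ̄(j)] = ψ(N)`, `finrank_jBar`);
* `t4e_finrank_alpha`: `[F_{N1 p,L_H} : α F_{N1,L_H}] = p` for `p ∣ N1` — the input `hdeg` of the product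
  formula for `N_β` (helper7's `t4vn_normB_eq_prod`) and of the Kronecker steps of T4E.
-/
import Mathlib
import Fermat.Agent.Lib.T1.GoodRed.CoreDeg
import Fermat.Agent.Lib.T2.Inst.DegreeMod
import Fermat.Agent.Lib.T2.Inst.KronH
import Fermat.Agent.Lib.T1.Inst.IntUp

set_option autoImplicit false
set_option linter.unusedSectionVars false
set_option linter.unusedVariables false
set_option linter.style.haveILetI false
set_option synthInstance.maxHeartbeats 400000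

open HahnSeries ModularCurve IntermediateField Fermat.Agent.T1 Fermat.Agent.T2 Fermat.Agent.TW
  Fermat.Agent.Igusa

noncomputable section

namespace Fermat.Agent.T4

local notation "Qb" => AlgebraicClosure ℚ

section Lev

variable (𝔓 : FFPlace) (N : ℕ) [NeZero N] (H : Subgroup 𝔓.I)

/-- `tbPhiF` maps `L_H(j)` into `ℚ̄(j)` -/
theorem t4e_tbPhiF_mem_range
    (a : ↥((↥(tbFix 𝔓 H))⟮taJ (L := ↥(tbFix 𝔓 H)) N⟯)) :
    tbPhiF 𝔓 N H (algebraMap ↥((↥(tbFix 𝔓 H))⟮taJ (L := ↥(tbFix 𝔓 H)) N⟯)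
        ↥(TaF ↥(tbFix 𝔓 H) N) a) ∈
      Set.range (algebraMap ↥(Qb⟮tbJ N⟯) ↥(modularFunctionFieldBar N)) := by
  refine bcd_map_algebraMap_mem_range (tbPhiF 𝔓 N H) ?_ {taJ (L := ↥(tbFix 𝔓 H)) N} {tbJ N} ?_ a
  · intro c
    exact ⟨(c : Qb), (tbPhiF_algebraMap 𝔓 N H c).symm⟩
  · intro s hs
    rw [Set.mem_singleton_iff] at hs
    rw [hs]
    have h1 : tbPhiF 𝔓 N H (taJ (L := ↥(tbFix 𝔓 H)) N) = tbJ N := tbPhiF_tbLevJ 𝔓 N H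
    rw [h1]
    exact mem_adjoin_simple_self Qb _

/-- `coeffEmb` factors through the level field -/
theorem t4e_tbPhi_coeffEmb (z : LaurentSeries ℚ) :
    tbPhi 𝔓 H (coeffEmb ↥(tbFix 𝔓 H) z) = coeffEmb Qb z := by
  ext n
  show algebraMap ↥(tbFix 𝔓 H) Qb (algebraMap ℚ ↥(tbFix 𝔓 H) (z.coeff n))
    = algebraMap ℚ Qb (z.coeff n)
  exact (IsScalarTower.algebraMap_apply ℚ ↥(tbFix 𝔓 H) Qb (z.coeff n)).symm

/-- `F_{N,ℚ̄}` is generated over `ℚ̄(j)` by the image of `F_{N,L_H}` -/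
theorem t4e_adjoin_range_tbPhiF :
    adjoin ↥(Qb⟮tbJ N⟯) (tbPhiF 𝔓 N H '' Set.univ) = ⊤ := by
  rw [eq_top_iff]
  intro f _
  set E := adjoin ↥(Qb⟮tbJ N⟯) (tbPhiF 𝔓 N H '' Set.univ) with hE
  set E' : IntermediateField Qb (LaurentSeries Qb) :=
    (E.restrictScalars Qb).map (modularFunctionFieldBar N).val with hE'
  have hle : modularFunctionFieldBar N ≤ E' := by
    rw [modularFunctionFieldBar, laurentBaseChange, IntermediateField.adjoin_le_iff]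
    rintro y ⟨z, hz, rfl⟩
    refine ⟨tbPhiF 𝔓 N H (taBC ↥(tbFix 𝔓 H) N ⟨z, hz⟩), ?_, ?_⟩
    · exact subset_adjoin _ _ ⟨_, Set.mem_univ _, rfl⟩
    · show tbPhi 𝔓 H (coeffEmb ↥(tbFix 𝔓 H) z) = coeffEmb Qb z
      exact t4e_tbPhi_coeffEmb 𝔓 H z
  obtain ⟨g, hg, hgf⟩ := hle f.2
  have : g = f := Subtype.ext hgf
  rw [← this]
  exact hg

/-- **`[F_{N,L_H} : L_H(j)] = ψ(N)`** at every level `N` -/
theorem t4e_finrank_lev :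
    Module.finrank ↥((↥(tbFix 𝔓 H))⟮taJ (L := ↥(tbFix 𝔓 H)) N⟯) ↥(TaF ↥(tbFix 𝔓 H) N)
      = dedekindPsi N := by
  refine le_antisymm (ta_finrank_le ↥(tbFix 𝔓 H) N) ?_
  have htop : adjoin ↥((↥(tbFix 𝔓 H))⟮taJ (L := ↥(tbFix 𝔓 H)) N⟯)
      (Set.univ : Set ↥(TaF ↥(tbFix 𝔓 H) N)) = ⊤ := by
    rw [eq_top_iff]
    intro f _
    exact subset_adjoin _ _ (Set.mem_univ f)
  haveI hfd0 : FiniteDimensional ↥((↥(tbFix 𝔓 H))⟮taJ (L := ↥(tbFix 𝔓 H)) N⟯)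
      ↥(adjoin ↥((↥(tbFix 𝔓 H))⟮taJ (L := ↥(tbFix 𝔓 H)) N⟯)
        (Set.univ : Set ↥(TaF ↥(tbFix 𝔓 H) N))) := by
    rw [htop]
    exact (IntermediateField.topEquiv (F := ↥((↥(tbFix 𝔓 H))⟮taJ (L := ↥(tbFix 𝔓 H)) N⟯))
      (E := ↥(TaF ↥(tbFix 𝔓 H) N))).symm.toLinearEquiv.finiteDimensional
  obtain ⟨h1, -⟩ := bcd_finrank_adjoin_image_le
    (K0 := ↥((↥(tbFix 𝔓 H))⟮taJ (L := ↥(tbFix 𝔓 H)) N⟯)) (K := ↥(Qb⟮tbJ N⟯))
    (tbPhiF 𝔓 N H) (t4e_tbPhiF_mem_range 𝔓 N H) Set.univ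
  rw [t4e_adjoin_range_tbPhiF, htop, IntermediateField.finrank_top',
    IntermediateField.finrank_top'] at h1
  rw [← t2dg_finrank_J N]
  exact h1

end Lev

section Alpha

variable (𝔓 : FFPlace) (H : Subgroup 𝔓.I) (N1 : ℕ) [NeZero N1]

attribute [local instance] t2iAlgebra t2i_isScalarTower

/-- **`[F_{N1 p} : α F_{N1}] = p`** over `L_H`, for `p ∣ N1` -/
theorem t4e_finrank_alpha (hdvd : 𝔓.p ∣ N1) :
    haveI : NeZero 𝔓.p := ⟨𝔓.hp.ne_zero⟩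
    Module.finrank ↥(TaF ↥(tbFix 𝔓 H) N1) ↥(TaF ↥(tbFix 𝔓 H) (N1 * 𝔓.p)) = 𝔓.p := by
  haveI : NeZero 𝔓.p := ⟨𝔓.hp.ne_zero⟩
  haveI : Fact 𝔓.p.Prime := ⟨𝔓.hp⟩
  have h1 := ta_finrank_tower (heckeAlphaBar ↥(tbFix 𝔓 H) N1 𝔓.p)
    (taJ (L := ↥(tbFix 𝔓 H)) N1)
  rw [t2i_alpha_taJ] at h1
  have h2 := t4e_finrank_lev 𝔓 N1 H
  have h3 := t4e_finrank_lev 𝔓 (N1 * 𝔓.p) H
  have h6 : dedekindPsi (N1 * 𝔓.p) = dedekindPsi N1 * 𝔓.p :=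
    igPsi_mul_prime_of_dvd 𝔓.hp (NeZero.ne N1) hdvd
  have h8 : 0 < dedekindPsi N1 := igPsi_pos (NeZero.ne N1)
  rw [h3, h2, h6] at h1
  exact (Nat.eq_of_mul_eq_mul_left h8 h1).symm

end Alpha

end Fermat.Agent.T4
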