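/-
T4E-Top (helper3): **the final form of the contract between the geometry of T4E and S45**.

helper4's `t4e_newAux_of_inst` (`Lib/T4E/New/Final.lean`) with its degree hypothesis `hdeg` discharged
by `t4e_finrank_alpha` (`Lib/T4E/Top/Degree.lean`, no geometric input): the geometry has to provide, for
every place `𝔓`, `N''` (`4 ∣ N''` or `9 ∣ N''`, `𝔓.p ∤ N''`), `k ≥ 1`, helper4's contract
`T4eInst 𝔓 (t4eLev N'' 𝔓.p k) (k + 2) _ (cC N'' 𝔓.p k)` at the levels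
`t4eLev N'' 𝔓.p (k + 1) ⊂ t4eLev N'' 𝔓.p (k + 2)` of helper9's tower; then `T4eNewAux t4eWU`, hence
(helper3's `t4e_S36gen`, helper2's `s45_of_new`) S45.
-/
import Mathlib
import Fermat.Agent.Lib.T4E.New.Final
import Fermat.Agent.Lib.T4E.Top.Degree

set_option autoImplicit false
set_option linter.unusedSectionVars false
set_option linter.unusedVariables false
set_option linter.style.haveILetI false
set_option synthInstance.maxHeartbeats 400000

open Fermat.Agent.T1 Fermat.Agent.T2 Fermat.Agent.TW ModularCurve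

namespace Fermat.Agent.T4

/-- the degree `[F_{k+2} : F_{k+1}] = p` at the levels of the tower, over the inertia field -/
theorem t4e_deg_tower (𝔓 : FFPlace) (N'' k : ℕ) [NeZero N''] :
    haveI : NeZero 𝔓.p := ⟨𝔓.hp.ne_zero⟩
    @Module.finrank ↥(TaF ↥(tbFix 𝔓 (⊤ : Subgroup 𝔓.I)) (t4eLev N'' 𝔓.p (k + 1)))
      ↥(TaF ↥(tbFix 𝔓 (⊤ : Subgroup 𝔓.I)) (t4eLev N'' 𝔓.p (k + 2))) _ _
      (heckeAlphaBar ↥(tbFix 𝔓 (⊤ : Subgroup 𝔓.I))
        (t4eLev N'' 𝔓.p (k + 1)) 𝔓.p).toRingHom.toAlgebra.toModule = 𝔓.p := by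
  haveI : NeZero 𝔓.p := ⟨𝔓.hp.ne_zero⟩
  exact t4e_finrank_alpha 𝔓 ⊤ (t4eLev N'' 𝔓.p (k + 1))
    (Dvd.intro_left (t4eLev N'' 𝔓.p k) rfl)

attribute [local instance] t4e_fact

/-- **THE CONTRACT OF THE GEOMETRY OF T4E** (helper4's `t4e_newAux_of_inst` without the degree
hypothesis): instances `(D, B)` of steps A + B with the dictionary and the step-C export at the two
top levels of the tower, for all places, all `N''` without elliptic points and all `k ≥ 1`, give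
`T4eNewAux t4eWU` — the open input of `t4e_S36gen`, hence of S45 -/
theorem t4e_newAux_of_inst' (cC : ℕ → ℕ → ℕ → ℕ) (hcC : ∀ N'' q k, cC N'' q k ≠ 0)
    (hinst : ∀ (𝔓 : FFPlace) (N'' k : ℕ) [NeZero N''] (h : ¬ 𝔓.p ∣ N''), 1 ≤ k →
      (4 ∣ N'' ∨ 9 ∣ N'') →
      @T4eInst 𝔓 (t4eLev N'' 𝔓.p k) (t4eLev_neZero N'' 𝔓.p k) (t4eLev_neZero N'' 𝔓.p (k + 1))
        (t4eLev_neZero N'' 𝔓.p (k + 2)) (k + 2) (Nat.le_add_left 2 k) (cC N'' 𝔓.p k)) :
    T4eNewAux t4eWU :=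
  t4e_newAux_of_inst cC hcC (fun 𝔓 N'' k _ _ => t4e_deg_tower 𝔓 N'' k) hinst

end Fermat.Agent.T4
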